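/-
S41 / C4 [CSP], step (L7) (helper95): from the THEOREM of helper11's proof

  `ParHomZero p q m` : every function `Φ : SL₂(ℚ) → ℤ/p` which is additive on
  `Γ(m)[1/q] = {g ≡ 1 mod m ℤ[1/q]}` and kills its unipotent elements (trace `2`) is zero on it

to the plug consumed by Ihara's lemma:

* `cspPlug95_of_parHomZero` : `Ihara95.CSPPlug N q p` (strong form, level `M = N p`);
* `cspPlug73_of_cspPlug95`, `cspPlug73_of_parHomZero` : the consumer form `Ihara73.CSPPlug N q p`;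
* `ihara_literal_of_parHomZero` : Ihara's lemma in the literal operators (the body of
  `Contract33.IharaPlug`).

The `p`-th power trick: a unipotent `g = 1 + n ∈ Γ(N p)[1/q]` is `(1 + n/p)^p` with
`1 + n/p ∈ Γ(N)[1/q] ⊆ Δ = Γ₀(N)[1/q]`, so every hom `Δ → ℤ/p` kills it.
-/
import Fermat.Agent.S41.Ihara95.Core
import Fermat.Agent.S41.Ihara95.Dict

set_option autoImplicit false
set_option linter.unusedSectionVars false

namespace Fermat.Agent.S41.CSP95

open Matrix Fermat.Agent.S41.Amalgam95 Fermat.Agent.S41.Ihara95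

/-- **The THEOREM of the CSP proof, as a proposition** (to be supplied): every function on `SL₂(ℚ)`
with values in `ℤ/p` which is additive on the principal congruence subgroup `Γ(m)[1/q]` and kills
its unipotent elements vanishes on `Γ(m)[1/q]`. -/
def ParHomZero (p q m : ℕ) : Prop :=
  ∀ Φ : SLQ → ZMod p,
    (∀ g h : SLQ, IsPrincipal q m g → IsPrincipal q m h → Φ (g * h) = Φ g + Φ h) →
    (∀ g : SLQ, IsPrincipal q m g → g 0 0 + g 1 1 = 2 → Φ g = 0) →
    ∀ g : SLQ, IsPrincipal q m g → Φ g = 0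

/-! ### congruence calculus -/

lemma isAway_of_congZero {q M : ℕ} {x : ℚ} (h : IsCongZero q M x) : IsAway q x := by
  obtain ⟨r, hr, rfl⟩ := h
  exact (IsAway.of_int (q := q) (M : ℤ)).mul hr |> fun h => by simpa using h

lemma congZero_of_mul {q N p : ℕ} {x : ℚ} (h : IsCongZero q (N * p) x) : IsCongZero q N x := by
  obtain ⟨r, hr, rfl⟩ := h
  refine ⟨(p : ℚ) * r, ?_, by push_cast; ring⟩
  have := (IsAway.of_int (q := q) (p : ℤ)).mul hr
  simpa using this

lemma congZero_div_p {q N p : ℕ} (hp : p ≠ 0) {x : ℚ} (h : IsCongZero q (N * p) x) :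
    IsCongZero q N (x / p) := by
  obtain ⟨r, hr, rfl⟩ := h
  have hp' : (p : ℚ) ≠ 0 := by exact_mod_cast hp
  refine ⟨r, hr, ?_⟩
  push_cast
  field_simp

lemma congZero_zero (q M : ℕ) : IsCongZero q M 0 := ⟨0, IsAway.zero, by ring⟩

lemma principal_of_mul {q N p : ℕ} {g : SLQ} (h : IsPrincipal q (N * p) g) :
    IsPrincipal q N g :=
  ⟨congZero_of_mul h.1, congZero_of_mul h.2.1, congZero_of_mul h.2.2.1, congZero_of_mul h.2.2.2⟩

/-- `Γ(N)[1/q] ⊆ Γ₀(N)[1/q]`. -/
lemma principal_mem_DeltaQ {q N : ℕ} {g : SLQ} (h : IsPrincipal q N g) : g ∈ DeltaQ N q := by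
  have h00 : IsCongZero q N (g 0 0 - 1) := h.1
  have h01 : IsCongZero q N (g 0 1) := h.2.1
  have h10 : IsCongZero q N (g 1 0) := h.2.2.1
  have h11 : IsCongZero q N (g 1 1 - 1) := h.2.2.2
  refine ⟨?_, isAway_of_congZero h01, ?_, ?_⟩
  · have := (isAway_of_congZero h00).add (IsAway.one (q := q))
    simpa using this
  · obtain ⟨r, hr, hr'⟩ := h10
    exact ⟨r, hr, hr'⟩
  · have := (isAway_of_congZero h11).add (IsAway.one (q := q))
    simpa using this

/-! ### the `p`-th root of a unipotent -/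

/-- `1 + n/p` for `g = 1 + n` unipotent. -/
noncomputable def rootP (p : ℕ) (g : SLQ) (hp : p ≠ 0) (htr : g 0 0 + g 1 1 = 2) : SLQ :=
  mkQ (1 + (g 0 0 - 1) / p) (g 0 1 / p) (g 1 0 / p) (1 + (g 1 1 - 1) / p) (by
    have hp' : (p : ℚ) ≠ 0 := by exact_mod_cast hp
    have hdet := det_eq g
    have h11 : g 1 1 = 2 - g 0 0 := by linarith
    rw [h11] at hdet ⊢
    field_simp
    ring_nf
    ring_nf at hdet
    nlinarith [hdet])


section root

variable {p : ℕ} {g : SLQ} (hp : p ≠ 0) (htr : g 0 0 + g 1 1 = 2)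

lemma rootP_00 : (rootP p g hp htr) 0 0 = 1 + (g 0 0 - 1) / p := rfl
lemma rootP_01 : (rootP p g hp htr) 0 1 = g 0 1 / p := rfl
lemma rootP_10 : (rootP p g hp htr) 1 0 = g 1 0 / p := rfl
lemma rootP_11 : (rootP p g hp htr) 1 1 = 1 + (g 1 1 - 1) / p := rfl

/-- the nilpotency relation `α² + βγ = 0` for `g = 1 + (α β; γ δ)` of trace `2`. -/
lemma nil_rel {g : SLQ} (htr : g 0 0 + g 1 1 = 2) : (g 0 0 - 1) ^ 2 + g 0 1 * g 1 0 = 0 := by
  have hdet := det_eq g
  have h11 : g 1 1 = 2 - g 0 0 := by linarith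
  rw [h11] at hdet
  nlinarith [hdet]

/-- `(1 + n/p)^k = 1 + k n/p`. -/
lemma rootP_pow (k : ℕ) :
    ((rootP p g hp htr) ^ k) 0 0 = 1 + k * ((g 0 0 - 1) / p) ∧
    ((rootP p g hp htr) ^ k) 0 1 = k * (g 0 1 / p) ∧
    ((rootP p g hp htr) ^ k) 1 0 = k * (g 1 0 / p) ∧
    ((rootP p g hp htr) ^ k) 1 1 = 1 + k * ((g 1 1 - 1) / p) := by
  have hp' : (p : ℚ) ≠ 0 := by exact_mod_cast hp
  have hnil := nil_rel htr
  have h11 : g 1 1 - 1 = -(g 0 0 - 1) := by linarith
  induction k with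
  | zero => simp
  | succ k ih =>
    obtain ⟨i00, i01, i10, i11⟩ := ih
    rw [pow_succ]
    refine ⟨?_, ?_, ?_, ?_⟩
    · rw [mul_00, i00, i01, rootP_00, rootP_10]
      push_cast
      have : g 0 1 / p * (g 1 0 / p) = -((g 0 0 - 1) / p) ^ 2 := by
        field_simp; linarith
      linear_combination (k : ℚ) * this
    · rw [mul_01, i00, i01, rootP_01, rootP_11, h11]
      push_cast
      ring
    · rw [mul_10, i10, i11, rootP_00, rootP_10, h11]
      push_cast
      ring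
    · rw [mul_11, i10, i11, rootP_01, rootP_11, h11]
      push_cast
      have : g 1 0 / p * (g 0 1 / p) = -((g 0 0 - 1) / p) ^ 2 := by
        field_simp; linarith
      linear_combination (k : ℚ) * this

lemma rootP_pow_self : (rootP p g hp htr) ^ p = g := by
  have hp' : (p : ℚ) ≠ 0 := by exact_mod_cast hp
  obtain ⟨h00, h01, h10, h11⟩ := rootP_pow hp htr p
  apply ext_entries
  · rw [h00]; field_simp; ring
  · rw [h01]; field_simp
  · rw [h10]; field_simp
  · rw [h11]; field_simp; ring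

lemma rootP_principal {q N : ℕ} (hg : IsPrincipal q (N * p) g) :
    IsPrincipal q N (rootP p g hp htr) := by
  refine ⟨?_, ?_, ?_, ?_⟩
  · rw [rootP_00]
    have := congZero_div_p hp hg.1
    simpa using this
  · rw [rootP_01]; exact congZero_div_p hp hg.2.1
  · rw [rootP_10]; exact congZero_div_p hp hg.2.2.1
  · rw [rootP_11]
    have := congZero_div_p hp hg.2.2.2
    simpa using this

end root

/-! ### the plug -/

/-- every element of `Multiplicative (ZMod p)` has `p`-th power `1`. -/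
lemma pow_p_eq_one (p : ℕ) (x : Multiplicative (ZMod p)) : x ^ p = 1 := by
  have h : (p : ℕ) • (Multiplicative.toAdd x) = 0 := by
    rw [nsmul_eq_mul]; simp
  have h2 : Multiplicative.toAdd (x ^ p) = 0 := by
    rw [toAdd_pow]; exact h
  exact Multiplicative.toAdd.injective h2

/-- **(L7), strong form.** -/
theorem cspPlug95_of_parHomZero {N q p : ℕ} (hp : p.Prime) (hq : q.Prime) (hqN : ¬ q ∣ N)
    (hqp : q ≠ p) (hN : N ≠ 0) (hT : ParHomZero p q (N * p)) :
    Fermat.Agent.S41.Ihara95.CSPPlug N q p := by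
  intro φ
  have hp0 : p ≠ 0 := hp.ne_zero
  refine ⟨N * p, Nat.mul_pos (Nat.pos_of_ne_zero hN) hp.pos, ?_, ?_⟩
  · refine Nat.Coprime.symm ((Nat.Prime.coprime_iff_not_dvd hq).2 ?_)
    intro h
    rcases (Nat.Prime.dvd_mul hq).1 h with h | h
    · exact hqN h
    · exact hqp ((Nat.prime_dvd_prime_iff_eq hq hp).1 h)
  · -- the extension of `φ` by zero
    classical
    let Φ : SLQ → ZMod p := fun g =>
      if h : g ∈ DeltaQ N q then Multiplicative.toAdd (φ ⟨g, h⟩) else 0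
    have hΦ : ∀ (g : SLQ) (h : g ∈ DeltaQ N q), Φ g = Multiplicative.toAdd (φ ⟨g, h⟩) := by
      intro g h
      simp only [Φ, dif_pos h]
    have hmem : ∀ g : SLQ, IsPrincipal q (N * p) g → g ∈ DeltaQ N q := fun g hg =>
      principal_mem_DeltaQ (principal_of_mul hg)
    have hmul : ∀ g h : SLQ, IsPrincipal q (N * p) g → IsPrincipal q (N * p) h →
        Φ (g * h) = Φ g + Φ h := by
      intro g h hg hh
      have h1 := hmem g hg
      have h2 := hmem h hh
      rw [hΦ g h1, hΦ h h2, hΦ (g * h) ((DeltaQ N q).mul_mem h1 h2), ← toAdd_mul, ← map_mul]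
      rfl
    have hun : ∀ g : SLQ, IsPrincipal q (N * p) g → g 0 0 + g 1 1 = 2 → Φ g = 0 := by
      intro g hg htr
      have h1 := hmem g hg
      have hr : rootP p g hp0 htr ∈ DeltaQ N q :=
        principal_mem_DeltaQ (rootP_principal hp0 htr hg)
      rw [hΦ g h1]
      have : (⟨g, h1⟩ : ↥(DeltaQ N q)) = (⟨rootP p g hp0 htr, hr⟩ : ↥(DeltaQ N q)) ^ p := by
        apply Subtype.ext
        rw [SubgroupClass.coe_pow]
        exact (rootP_pow_self hp0 htr).symm
      rw [this, map_pow, pow_p_eq_one]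
      rfl
    intro g hg
    have h0 := hT Φ hmul hun (g : SLQ) hg
    rw [hΦ (g : SLQ) g.2] at h0
    exact Multiplicative.toAdd.injective h0

/-- strong form ⟹ consumer form. -/
theorem cspPlug73_of_cspPlug95 {N q p : ℕ} [hqp : Fact q.Prime]
    (h : Fermat.Agent.S41.Ihara95.CSPPlug N q p) : Fermat.Agent.S41.Ihara73.CSPPlug N q p := by
  intro φ
  obtain ⟨M, hM0, -, hM⟩ := h φ
  refine ⟨M, hM0, fun g hg => ⟨?_, ?_⟩⟩
  · exact hM _ (isPrincipal_castSL q M _ hg)
  · exact hM _ (isPrincipal_conj_castSL q M (q_ne_zero q) _ hg)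

/-- **(L7), consumer form.** -/
theorem cspPlug73_of_parHomZero {N q p : ℕ} [hqp : Fact q.Prime] (hp : p.Prime) (hqN : ¬ q ∣ N)
    (hqpne : q ≠ p) (hN : N ≠ 0) (hT : ParHomZero p q (N * p)) :
    Fermat.Agent.S41.Ihara73.CSPPlug N q p :=
  cspPlug73_of_cspPlug95 (cspPlug95_of_parHomZero hp hqp.out hqN hqpne hN hT)


/-! ### Ihara's lemma in the literal operators -/

open ModularCurve.Period CongruenceSubgroup in
/-- **Ihara's lemma in the literal operators, from the THEOREM**: the statement is verbatim the body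
of `Contract33.IharaPlug`. -/
theorem ihara_literal_of_parHomZero
    (hT : ∀ p q m : ℕ, p.Prime → p ≠ 2 → q.Prime → q ≠ p → 0 < m → Nat.Coprime m q →
      ParHomZero p q m) :
    ∀ (p N q' : ℕ) (_ : p.Prime) (_ : p ≠ 2) (hq' : q'.Prime) (_ : ¬ q' ∣ N) (_ : q' ≠ p)
      [NeZero N] [NeZero (N * q')],
      ∀ x ∈ parabolicHoms ℤ (Gamma0 N) ℤ, ∀ y ∈ parabolicHoms ℤ (Gamma0 N) ℤ,
        (∃ w ∈ parabolicHoms ℤ (Gamma0 (N * q')) ℤ,
          Hecke15.degRes (Dvd.intro q' rfl) ℤ x + Hecke15.degConj hq'.pos ℤ y = (p : ℤ) • w) →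
        ∃ B : Finset ℕ, ∀ ℓ, ℓ.Prime → ℓ ∉ B →
          (∃ w ∈ parabolicHoms ℤ (Gamma0 N) ℤ,
            Hecke15.TX N ℤ ℓ x - ((ℓ : ℤ) + 1) • x = (p : ℤ) • w) ∧
          (∃ w ∈ parabolicHoms ℤ (Gamma0 N) ℤ,
            Hecke15.TX N ℤ ℓ y - ((ℓ : ℤ) + 1) • y = (p : ℤ) • w) := by
  intro p N q' hp hp2 hq' hqN hqp _ _ x hx y hy hw
  obtain ⟨w, -, hw⟩ := hw
  have : Fact q'.Prime := ⟨hq'⟩
  have : Fact p.Prime := ⟨hp⟩
  have hN : N ≠ 0 := NeZero.ne N
  have hcop : Nat.Coprime (N * p) q' := by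
    refine Nat.Coprime.symm ((Nat.Prime.coprime_iff_not_dvd hq').2 ?_)
    intro h
    rcases (Nat.Prime.dvd_mul hq').1 h with h | h
    · exact hqN h
    · exact hqp ((Nat.prime_dvd_prime_iff_eq hq' hp).1 h)
  have hplug : Fermat.Agent.S41.Ihara73.CSPPlug N q' p :=
    cspPlug73_of_parHomZero hp hqN hqp hN
      (hT p q' (N * p) hp hp2 hq' hqp (Nat.mul_pos (Nat.pos_of_ne_zero hN) hp.pos) hcop)
  exact Fermat.Agent.S41.Ihara95.ihara_hI_degen hqN hplug hx hy w hw

end Fermat.Agent.S41.CSP95
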