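/-
S41 / C4 [CSP] → plug 3 (helper95): `Contract33.CSPAll` (the last leaf of S41 in helper33's
`Contract33/FromCSP.lean`) and `Contract33.IharaPlug` from the THEOREM of the CSP proof in the form
`∀ p q m, … → CSP95.ParHomZero p q m` (the target of `CSP11/Theorem.lean`).
-/
import Fermat.Agent.S41.CSP95.Plug
import Fermat.Agent.S41.Contract33.FromCSP

set_option autoImplicit false

namespace Fermat.Agent.S41.CSP95

/-- the exact shape of the final theorem of the CSP tree. -/
def ParHomZeroAll : Prop :=
  ∀ p q m : ℕ, p.Prime → p ≠ 2 → q.Prime → q ≠ p → 0 < m → Nat.Coprime m q → ParHomZero p q m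

/-- **`CSPAll` from the THEOREM.** -/
theorem cspAll_of_parHomZeroAll (hT : ParHomZeroAll) : Fermat.Agent.S41.Contract33.CSPAll := by
  intro N q p hq hp hp2 hqN hqp hN
  have hcop : Nat.Coprime (N * p) q := by
    refine Nat.Coprime.symm ((Nat.Prime.coprime_iff_not_dvd hq.out).2 ?_)
    intro h
    rcases (Nat.Prime.dvd_mul hq.out).1 h with h | h
    · exact hqN h
    · exact hqp ((Nat.prime_dvd_prime_iff_eq hq.out hp).1 h)
  exact cspPlug73_of_parHomZero hp hqN hqp hN.ne'
    (hT p q (N * p) hp hp2 hq.out hqp (Nat.mul_pos hN hp.pos) hcop)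

/-- **`IharaPlug` from the THEOREM** (via helper33's `iharaPlug_of_csp`). -/
theorem iharaPlug_of_parHomZeroAll (hT : ParHomZeroAll) :
    Fermat.Agent.S41.Contract33.IharaPlug :=
  Fermat.Agent.S41.Contract33.iharaPlug_of_csp (cspAll_of_parHomZeroAll hT)

/-- the same, directly from the literal form (cross-check of the binder shapes). -/
theorem iharaPlug_of_parHomZeroAll' (hT : ParHomZeroAll) :
    Fermat.Agent.S41.Contract33.IharaPlug :=
  ihara_literal_of_parHomZero hT

end Fermat.Agent.S41.CSP95
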